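import Fermat.Agent.RationalTriangles.Surface

/-!
# Density of rational triangles of area `n`

Permute so that `s - a` is largest, scale so that `n` is an integer, and pass to the sides.
-/

set_option autoImplicit false

noncomputable section

open Filter
open scoped Topology

namespace FA.RationalTriangles

theorem heron_dense_int {n : ℤ} (hn : 0 < n) {x y z : ℝ} (hx : 0 < x) (hy : 0 < y) (hz : 0 < z)
    (h : heronProduct (x, y, z) = (n : ℝ) ^ 2) {U : Set (ℝ × ℝ × ℝ)} (hU : U ∈ 𝓝 (x, y, z)) :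
    {P : ℚ × ℚ × ℚ | heronProduct P = (n : ℚ) ^ 2 ∧
      ((P.1 : ℝ), (P.2.1 : ℝ), (P.2.2 : ℝ)) ∈ U}.Infinite := by
  simp only [heronProduct] at h
  by_cases h₁ : y ≤ x ∧ z ≤ x
  · exact heron_dense_max hn hy hz h₁.1 h₁.2 h hU
  by_cases h₂ : x ≤ y ∧ z ≤ y
  · have hc : Continuous fun P : ℝ × ℝ × ℝ => (P.2.1, P.1, P.2.2) := by fun_prop
    refine Set.infinite_of_injOn_mapsTo (f := fun P : ℚ × ℚ × ℚ => (P.2.1, P.1, P.2.2)) ?_ ?_
      (heron_dense_max hn hx hz h₂.1 h₂.2 (by simp only [heronProduct]; linear_combination h)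
        (hc.continuousAt.preimage_mem_nhds (x := (y, x, z)) hU))
    · intro P _ Q _ e
      simp only [Prod.mk.injEq] at e
      exact Prod.ext e.2.1 (Prod.ext e.1 e.2.2)
    · rintro P ⟨hP, hU'⟩
      refine ⟨?_, hU'⟩
      simp only [heronProduct] at hP ⊢
      linear_combination hP
  · obtain ⟨hzx, hzy⟩ : x ≤ z ∧ y ≤ z := by
      rcases not_and_or.1 h₁ with e₁ | e₁ <;> rcases not_and_or.1 h₂ with e₂ | e₂ <;>
        constructor <;> linarith [le_of_not_ge e₁, le_of_not_ge e₂]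
    have hc : Continuous fun P : ℝ × ℝ × ℝ => (P.2.1, P.2.2, P.1) := by fun_prop
    refine Set.infinite_of_injOn_mapsTo (f := fun P : ℚ × ℚ × ℚ => (P.2.1, P.2.2, P.1)) ?_ ?_
      (heron_dense_max hn hx hy hzx hzy (by simp only [heronProduct]; linear_combination h)
        (hc.continuousAt.preimage_mem_nhds (x := (z, x, y)) hU))
    · intro P _ Q _ e
      simp only [Prod.mk.injEq] at e
      exact Prod.ext e.2.2 (Prod.ext e.1 e.2.1)
    · rintro P ⟨hP, hU'⟩
      refine ⟨?_, hU'⟩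
      simp only [heronProduct] at hP ⊢
      linear_combination hP

theorem heron_dense {n : ℚ} (hn : 0 < n) {x y z : ℝ} (hx : 0 < x) (hy : 0 < y) (hz : 0 < z)
    (h : heronProduct (x, y, z) = (n : ℝ) ^ 2) {U : Set (ℝ × ℝ × ℝ)} (hU : U ∈ 𝓝 (x, y, z)) :
    {P : ℚ × ℚ × ℚ | heronProduct P = n ^ 2 ∧
      ((P.1 : ℝ), (P.2.1 : ℝ), (P.2.2 : ℝ)) ∈ U}.Infinite := by
  have hd : (0 : ℝ) < (n.den : ℝ) := Nat.cast_pos.2 n.pos
  have hnd : (n.den : ℚ) ≠ 0 := Nat.cast_ne_zero.2 n.den_nz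
  have hN : ((n.num * n.den : ℤ) : ℚ) = n * (n.den : ℚ) ^ 2 := by
    push_cast; rw [← Rat.mul_den_eq_num n]; ring
  have hc : Continuous fun P : ℝ × ℝ × ℝ => (P.1 / n.den, P.2.1 / n.den, P.2.2 / n.den) := by
    fun_prop
  refine Set.infinite_of_injOn_mapsTo
    (f := fun P : ℚ × ℚ × ℚ => (P.1 / n.den, P.2.1 / n.den, P.2.2 / n.den)) ?_ ?_
    (heron_dense_int (n := n.num * n.den) (mul_pos (Rat.num_pos.2 hn) (by exact_mod_cast n.pos))
      (mul_pos hd hx) (mul_pos hd hy) (mul_pos hd hz) ?_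
      (hc.continuousAt.preimage_mem_nhds (x := ((n.den : ℝ) * x, n.den * y, n.den * z))
        (by simpa [mul_div_cancel_left₀ _ hd.ne'] using hU)))
  · intro P _ Q _ e
    simp only [Prod.mk.injEq] at e
    exact Prod.ext ((div_left_inj' hnd).1 e.1)
      (Prod.ext ((div_left_inj' hnd).1 e.2.1) ((div_left_inj' hnd).1 e.2.2))
  · rintro P ⟨hP, hU'⟩
    refine ⟨?_, by simpa using hU'⟩
    rw [hN] at hP
    simp only [heronProduct] at hP ⊢
    field_simp
    linear_combination hP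
  · have hN' : ((n.num * n.den : ℤ) : ℝ) = (n : ℝ) * (n.den : ℝ) ^ 2 := by exact_mod_cast hN
    rw [hN']
    simp only [heronProduct] at h ⊢
    linear_combination (n.den : ℝ) ^ 4 * h

/-- A triangle with these sides and area `n`. -/
def IsTriangle (n : ℚ) (T : ℚ × ℚ × ℚ) : Prop :=
  T.1 < T.2.1 + T.2.2 ∧ T.2.1 < T.2.2 + T.1 ∧ T.2.2 < T.1 + T.2.1 ∧
    (T.1 + T.2.1 + T.2.2) * (T.2.1 + T.2.2 - T.1) * (T.2.2 + T.1 - T.2.1) *
      (T.1 + T.2.1 - T.2.2) = 16 * n ^ 2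

theorem triangle_dense {n : ℚ} (hn : 0 < n) {a b c : ℝ} (ha : a < b + c) (hb : b < c + a)
    (hc : c < a + b)
    (h : (a + b + c) * (b + c - a) * (c + a - b) * (a + b - c) = 16 * (n : ℝ) ^ 2)
    {U : Set (ℝ × ℝ × ℝ)} (hU : U ∈ 𝓝 (a, b, c)) :
    {T : ℚ × ℚ × ℚ | IsTriangle n T ∧ ((T.1 : ℝ), (T.2.1 : ℝ), (T.2.2 : ℝ)) ∈ U}.Infinite := by
  set x := (b + c - a) / 2 with hx
  set y := (c + a - b) / 2 with hy
  set z := (a + b - c) / 2 with hz
  have x0 : 0 < x := by rw [hx]; linarith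
  have y0 : 0 < y := by rw [hy]; linarith
  have z0 : 0 < z := by rw [hz]; linarith
  have hs : Continuous fun P : ℝ × ℝ × ℝ => (P.2.1 + P.2.2, P.2.2 + P.1, P.1 + P.2.1) := by
    fun_prop
  have hpos : {P : ℝ × ℝ × ℝ | 0 < P.1 ∧ 0 < P.2.1 ∧ 0 < P.2.2} ∈ 𝓝 (x, y, z) :=
    ((isOpen_lt continuous_const continuous_fst).inter ((isOpen_lt continuous_const
      continuous_snd.fst).inter (isOpen_lt continuous_const continuous_snd.snd))).mem_nhds
        ⟨x0, y0, z0⟩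
  have hxyz : (y + z, z + x, x + y) = (a, b, c) := by
    simp only [hx, hy, hz, Prod.mk.injEq]; refine ⟨?_, ?_, ?_⟩ <;> ring
  refine Set.infinite_of_injOn_mapsTo
    (f := fun P : ℚ × ℚ × ℚ => (P.2.1 + P.2.2, P.2.2 + P.1, P.1 + P.2.1)) ?_ ?_
    (heron_dense hn x0 y0 z0 ?_ (inter_mem (hs.continuousAt.preimage_mem_nhds (x := (x, y, z))
      (hxyz ▸ hU)) hpos))
  · intro P _ Q _ e
    simp only [Prod.mk.injEq] at e
    exact Prod.ext (by linarith) (Prod.ext (by linarith) (by linarith))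
  · rintro P ⟨hP, hU', p₁, p₂, p₃⟩
    simp only [Rat.cast_pos] at p₁ p₂ p₃
    simp only [heronProduct] at hP
    refine ⟨⟨by simp only; linarith, by simp only; linarith, by simp only; linarith, ?_⟩,
      by simpa using hU'⟩
    simp only
    linear_combination 16 * hP
  · simp only [heronProduct, hx, hy, hz]
    linear_combination h / 16

end FA.RationalTriangles
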