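import Fermat.Agent.Root.SummaryRealDensity

/-!
# Density on the bounded component

If `y² = (x - r₁) (x - r₂) (x - r₃)` with rational `r₂ < r₁ < r₃` has infinitely many rational
points, they are dense on the component over `(r₂, r₁)`: the translation by `(r₂, 0)` carries it to
the identity component.
-/

set_option autoImplicit false
set_option linter.style.haveILetI false

noncomputable section

open WeierstrassCurve Filter
open scoped Topology

namespace FA.RationalTriangles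

/-- The cubic with the three roots. -/
def cubicAt {F : Type*} [Ring F] (r₁ r₂ r₃ x : F) : F := (x - r₁) * (x - r₂) * (x - r₃)

/-- Translation by `(r₂, 0)`. -/
def translate {F : Type*} [Field F] (r₁ r₂ r₃ : F) (P : F × F) : F × F :=
  (r₂ + (r₁ - r₂) * (r₃ - r₂) / (P.1 - r₂),
    -((r₁ - r₂) * (r₃ - r₂)) * P.2 / (P.1 - r₂) ^ 2)

variable {F : Type*} [Field F] {r₁ r₂ r₃ : F} {P : F × F}

theorem translate_equation (hP : P.1 - r₂ ≠ 0) (h : P.2 ^ 2 = cubicAt r₁ r₂ r₃ P.1) :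
    (translate r₁ r₂ r₃ P).2 ^ 2 = cubicAt r₁ r₂ r₃ (translate r₁ r₂ r₃ P).1 := by
  simp only [translate, cubicAt] at *
  field_simp
  linear_combination ((r₁ - r₂) * (r₃ - r₂)) ^ 2 * h

theorem translate_translate (hP : P.1 - r₂ ≠ 0) (h₁ : r₁ - r₂ ≠ 0) (h₃ : r₃ - r₂ ≠ 0) :
    translate r₁ r₂ r₃ (translate r₁ r₂ r₃ P) = P := by
  refine Prod.ext ?_ ?_ <;> simp only [translate, add_sub_cancel_left] <;> field_simp
  all_goals ring

theorem egg_dense {r₁ r₂ r₃ : ℚ} (hs : r₁ + r₂ + r₃ = 0) (h21 : r₂ < r₁) (h13 : r₁ < r₃)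
    (hinf : {P : ℚ × ℚ | P.2 ^ 2 = cubicAt r₁ r₂ r₃ P.1}.Infinite) {x y : ℝ} (hx₂ : r₂ < x)
    (hx₁ : x < r₁) (h : y ^ 2 = cubicAt (r₁ : ℝ) r₂ r₃ x) {U : Set (ℝ × ℝ)}
    (hU : U ∈ 𝓝 (x, y)) :
    {P : ℚ × ℚ | P.2 ^ 2 = cubicAt r₁ r₂ r₃ P.1 ∧ ((P.1 : ℝ), (P.2 : ℝ)) ∈ U}.Infinite := by
  classical
  set A := r₁ * r₂ + r₁ * r₃ + r₂ * r₃ with hA
  set B := -(r₁ * r₂ * r₃) with hB
  obtain rfl : r₃ = -r₁ - r₂ := by linarith
  have hcub : ∀ u : ℚ, cubicAt r₁ r₂ (-r₁ - r₂) u = u ^ 3 + A * u + B := fun u => by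
    simp only [cubicAt, hA, hB]; ring
  haveI : (⟨0, 0, 0, A, B⟩ : WeierstrassCurve ℚ).IsElliptic := by
    refine ⟨isUnit_iff_ne_zero.mpr ?_⟩
    rw [show (⟨0, 0, 0, A, B⟩ : WeierstrassCurve ℚ).Δ =
        16 * ((r₁ - r₂) * (r₁ - (-r₁ - r₂)) * (r₂ - (-r₁ - r₂))) ^ 2 by
      simp [WeierstrassCurve.Δ, WeierstrassCurve.b₂, WeierstrassCurve.b₄,
        WeierstrassCurve.b₆, WeierstrassCurve.b₈, hA, hB]
      ring]
    refine mul_ne_zero (by norm_num) (pow_ne_zero _ (mul_ne_zero (mul_ne_zero ?_ ?_) ?_)) <;>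
      intro e <;> linarith
  haveI : Infinite {P : ℚ × ℚ | P.2 ^ 2 = cubicAt r₁ r₂ (-r₁ - r₂) P.1} := hinf.to_subtype
  haveI : Infinite (⟨0, 0, 0, A, B⟩ : WeierstrassCurve ℚ).toAffine.Point := by
    refine Infinite.of_injective (fun P : {P : ℚ × ℚ | P.2 ^ 2 = cubicAt r₁ r₂ (-r₁ - r₂) P.1} =>
      .some P.1.1 P.1.2 (Affine.equation_iff_nonsingular.mp ((Affine.equation_iff _ _).mpr (by
        simp; exact P.2.trans (hcub _))))) fun P Q e => ?_
    simp only [Affine.Point.some.injEq] at e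
    exact Subtype.ext (Prod.ext e.1 e.2)
  have r21 : (r₂ : ℝ) < r₁ := by exact_mod_cast h21
  have r13 : (r₁ : ℝ) < -r₁ - r₂ := by exact_mod_cast h13
  push_cast at h
  set τ := translate (r₁ : ℝ) r₂ (-r₁ - r₂) with hτ
  have hx0 : x - r₂ ≠ 0 := (sub_pos.2 hx₂).ne'
  have hxy := translate_equation (P := (x, y)) hx0 h
  rw [← hτ] at hxy
  have hbig : (-r₁ - r₂ : ℝ) < (τ (x, y)).1 := by
    simp only [hτ, translate]
    have : (-r₁ - r₂ - r₂ : ℝ) < (r₁ - r₂) * (-r₁ - r₂ - r₂) / (x - r₂) := by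
      rw [lt_div_iff₀ (sub_pos.2 hx₂)]; nlinarith
    linarith
  have hne : (τ (x, y)).1 - r₂ ≠ 0 := by intro e; linarith
  have hcont : ContinuousAt τ (τ (x, y)) := by
    simp only [hτ, translate]
    refine ContinuousAt.prodMk (continuousAt_const.add (continuousAt_const.div (by fun_prop) hne))
      ((continuousAt_const.mul continuousAt_snd).div (by fun_prop) (pow_ne_zero _ hne))
  have hpre : τ ⁻¹' U ∈ 𝓝 (τ (x, y)) := by
    refine hcont.preimage_mem_nhds ?_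
    rwa [hτ, translate_translate (P := (x, y)) hx0 (sub_pos.2 r21).ne' (by intro e; linarith)]
  obtain ⟨δ, hδ, hball⟩ := Metric.mem_nhds_iff.1 (inter_mem hpre
    ((isOpen_lt continuous_const continuous_fst).mem_nhds hbig))
  have hd := FA.Summary.rationalPoints_dense (A := A) (B := B) (x := (τ (x, y)).1)
    (y := (τ (x, y)).2) (by rw [hxy]; simp only [cubicAt, hA, hB]; push_cast; ring)
    (fun t ht => by
      rw [show t ^ 3 + (A : ℝ) * t + B = (t - r₁) * (t - r₂) * (t - (-r₁ - r₂)) by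
        simp only [hA, hB]; push_cast; ring]
      exact mul_pos (mul_pos (by linarith) (by linarith)) (by linarith)) hδ
  have hgood : ∀ P : ℚ × ℚ, |(P.1 : ℝ) - (τ (x, y)).1| < δ →
      |(P.2 : ℝ) - (τ (x, y)).2| < δ → τ ((P.1 : ℝ), (P.2 : ℝ)) ∈ U ∧ P.1 - r₂ ≠ 0 := by
    intro P h₁ h₂
    obtain ⟨hU', hb⟩ := hball (show ((P.1 : ℝ), (P.2 : ℝ)) ∈ Metric.ball (τ (x, y)) δ by
      rw [Metric.mem_ball, Prod.dist_eq, Real.dist_eq, Real.dist_eq]; exact max_lt h₁ h₂)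
    refine ⟨hU', fun e => ?_⟩
    have : (P.1 : ℝ) = r₂ := by exact_mod_cast sub_eq_zero.1 e
    simp only [Set.mem_ofPred_eq] at hb
    linarith
  refine Set.infinite_of_injOn_mapsTo (f := translate r₁ r₂ (-r₁ - r₂)) ?_ ?_ hd
  · intro P hP Q hQ e
    have inv : ∀ R : ℚ × ℚ, R.1 - r₂ ≠ 0 →
        translate r₁ r₂ (-r₁ - r₂) (translate r₁ r₂ (-r₁ - r₂) R) = R := fun R hR =>
      translate_translate hR (by linarith) (by linarith)
    rw [← inv P (hgood P hP.2.1 hP.2.2).2, e, inv Q (hgood Q hQ.2.1 hQ.2.2).2]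
  · rintro P ⟨hP, h₁, h₂⟩
    obtain ⟨hU', hne'⟩ := hgood P h₁ h₂
    refine ⟨translate_equation hne' (hP.trans (hcub _).symm), ?_⟩
    have : (((translate r₁ r₂ (-r₁ - r₂) P).1 : ℝ), ((translate r₁ r₂ (-r₁ - r₂) P).2 : ℝ)) =
        τ ((P.1 : ℝ), (P.2 : ℝ)) := by
      simp only [hτ, translate]; push_cast; rfl
    rw [this]; exact hU'

end FA.RationalTriangles
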