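import Fermat.Agent.NagellLutz.Main

/-!
# Points of infinite order on the curves of rational triangles

For `a = 2 n c²`, `b = n c² + 2 d²` the curve `Y² = X (X - n a³ b) (X + n a b³)` has the point
`(-4 n a² b d², 4 n² a² b² c d (a - b))`, no torsion point when a prime `q ≥ 5` prime to `n d`
divides `n c² - 2 d²`, by Nagell and Lutz.
-/

set_option autoImplicit false
set_option linter.style.haveILetI false

noncomputable section

open WeierstrassCurve

namespace FA.RationalTriangles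

/-- A root of the shifted cubic. -/
def root₁ (n a b : ℤ) : ℤ := -3 * (n * a ^ 3 * b - n * a * b ^ 3)

/-- The least root of the shifted cubic. -/
def root₂ (n a b : ℤ) : ℤ := -6 * n * a * b ^ 3 - 3 * n * a ^ 3 * b

/-- The largest root of the shifted cubic. -/
def root₃ (n a b : ℤ) : ℤ := 6 * n * a ^ 3 * b + 3 * n * a * b ^ 3

theorem root_sum (n a b : ℤ) : root₁ n a b + root₂ n a b + root₃ n a b = 0 := by
  simp only [root₁, root₂, root₃]; ring

/-- The rational points of the fibre. -/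
def fibrePoints (n a b : ℤ) : Set (ℚ × ℚ) :=
  {P | P.2 ^ 2 = (P.1 - root₁ n a b) * (P.1 - root₂ n a b) * (P.1 - root₃ n a b)}

theorem infinite_fibre {n c d : ℤ} {q : ℕ} (hq : q.Prime) (h5 : 5 ≤ q) (hn : ¬(q : ℤ) ∣ n)
    (hd : ¬(q : ℤ) ∣ d) (hcd : (q : ℤ) ∣ n * c ^ 2 - 2 * d ^ 2) (hb0 : n * c ^ 2 - 2 * d ^ 2 ≠ 0) :
    (fibrePoints n (2 * n * c ^ 2) (n * c ^ 2 + 2 * d ^ 2)).Infinite := by
  set a := 2 * n * c ^ 2 with ha
  set b := n * c ^ 2 + 2 * d ^ 2 with hb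
  have hp : Prime (q : ℤ) := Nat.prime_iff_prime_int.1 hq
  have small : ∀ k : ℕ, 0 < k → k < 5 → ¬(q : ℤ) ∣ (k : ℤ) := fun k hk hk5 h => by
    have := Nat.le_of_dvd hk (Int.natCast_dvd_natCast.1 h)
    omega
  have h2 : ¬(q : ℤ) ∣ 2 := by exact_mod_cast small 2 (by norm_num) (by norm_num)
  have h3 : ¬(q : ℤ) ∣ 3 := by exact_mod_cast small 3 (by norm_num) (by norm_num)
  have hdd : ¬(q : ℤ) ∣ 2 * d ^ 2 := fun h =>
    (hp.dvd_or_dvd h).elim h2 fun h => hd (hp.dvd_of_dvd_pow h)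
  have hc : ¬(q : ℤ) ∣ c := fun h => hdd (by
    have := dvd_sub (dvd_mul_of_dvd_right (dvd_pow h two_ne_zero) n) hcd
    simpa using this)
  have hqa : ¬(q : ℤ) ∣ a := fun h => (hp.dvd_or_dvd h).elim
    (fun h => (hp.dvd_or_dvd h).elim h2 hn) fun h => hc (hp.dvd_of_dvd_pow h)
  have hab : (q : ℤ) ∣ a - b := by rw [ha, hb]; convert hcd using 1; ring
  have hqb : ¬(q : ℤ) ∣ b := fun h => hqa (by simpa using dvd_add hab h)
  have hqs : ¬(q : ℤ) ∣ a ^ 2 + b ^ 2 := fun h => by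
    have h' := dvd_sub h (dvd_mul_of_dvd_left hab (a + b))
    rw [show a ^ 2 + b ^ 2 - (a - b) * (a + b) = 2 * b ^ 2 by ring] at h'
    exact (hp.dvd_or_dvd h').elim h2 fun h => hqb (hp.dvd_of_dvd_pow h)
  set A := root₁ n a b * root₂ n a b + root₁ n a b * root₃ n a b + root₂ n a b * root₃ n a b
  set B := -(root₁ n a b * root₂ n a b * root₃ n a b)
  set D := 729 * n ^ 3 * a ^ 5 * b ^ 5 * (a ^ 2 + b ^ 2) with hDdef
  have hdisc : 4 * A ^ 3 + 27 * B ^ 2 = -D ^ 2 := by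
    simp only [A, B, D, root₁, root₂, root₃]; ring
  have hqD : ¬(q : ℤ) ∣ D := by
    intro h
    rcases hp.dvd_or_dvd h with h | h
    · rcases hp.dvd_or_dvd h with h | h
      · rcases hp.dvd_or_dvd h with h | h
        · rcases hp.dvd_or_dvd h with h | h
          · exact h3 (hp.dvd_of_dvd_pow (n := 6) (by norm_num; exact h))
          · exact hn (hp.dvd_of_dvd_pow h)
        · exact hqa (hp.dvd_of_dvd_pow h)
      · exact hqb (hp.dvd_of_dvd_pow h)
    · exact hqs h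
  have hD0 : D ≠ 0 := fun h => hqD (h ▸ dvd_zero _)
  set X₀ : ℤ := -36 * n * a ^ 2 * b * d ^ 2 - 3 * (n * a ^ 3 * b - n * a * b ^ 3)
  set Y₀ : ℤ := 108 * n ^ 2 * a ^ 2 * b ^ 2 * c * d * (a - b)
  have he : Y₀ ^ 2 = X₀ ^ 3 + A * X₀ + B := by
    simp only [X₀, Y₀, A, B, root₁, root₂, root₃, ha, hb]; ring
  have hdiscQ : 4 * A ^ 3 + 27 * B ^ 2 ≠ 0 := by rw [hdisc]; simp [hD0]
  haveI : (⟨0, 0, 0, (A : ℚ), (B : ℚ)⟩ : WeierstrassCurve ℚ).IsElliptic := by
    refine ⟨isUnit_iff_ne_zero.mpr ?_⟩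
    rw [show (⟨0, 0, 0, (A : ℚ), (B : ℚ)⟩ : WeierstrassCurve ℚ).Δ =
        -16 * ((4 * A ^ 3 + 27 * B ^ 2 : ℤ) : ℚ) by
      simp [WeierstrassCurve.Δ, WeierstrassCurve.b₂, WeierstrassCurve.b₄,
        WeierstrassCurve.b₆, WeierstrassCurve.b₈]
      ring]
    exact mul_ne_zero (by norm_num) (Int.cast_ne_zero.mpr hdiscQ)
  have hns : (⟨0, 0, 0, (A : ℚ), (B : ℚ)⟩ : WeierstrassCurve ℚ).toAffine.Nonsingular
      (X₀ : ℚ) (Y₀ : ℚ) := Affine.equation_iff_nonsingular.mp ((Affine.equation_iff _ _).mpr (by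
    simp; exact_mod_cast he))
  have hY : Y₀ ≠ 0 := by
    have hab0 : a - b ≠ 0 := by rw [ha, hb]; intro e; exact hb0 (by linear_combination e)
    refine mul_ne_zero (mul_ne_zero (mul_ne_zero (mul_ne_zero (mul_ne_zero ?_ ?_) ?_) ?_) ?_) hab0
    · exact mul_ne_zero (by norm_num) (pow_ne_zero _ fun e => hn (e ▸ dvd_zero _))
    · exact pow_ne_zero _ fun e => hqa (e ▸ dvd_zero _)
    · exact pow_ne_zero _ fun e => hqb (e ▸ dvd_zero _)
    · exact fun e => hc (e ▸ dvd_zero _)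
    · exact fun e => hd (e ▸ dvd_zero _)
  have hP : ¬IsOfFinAddOrder (Affine.Point.some _ _ hns) := fun hfo => by
    obtain ⟨X, Y, -, hy, h0⟩ := FA.Summary.nagell_lutz A B hdiscQ hfo
    obtain rfl : Y₀ = Y := by exact_mod_cast hy
    rcases h0 with h0 | h0
    · exact hY h0
    · refine hqD (hp.dvd_of_dvd_pow (n := 2) ?_)
      rw [hdisc, dvd_neg] at h0
      exact (dvd_pow (dvd_mul_of_dvd_right hab _) two_ne_zero).trans h0
  haveI : Infinite (⟨0, 0, 0, (A : ℚ), (B : ℚ)⟩ : WeierstrassCurve ℚ).toAffine.Point :=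
    Infinite.of_injective _ (injective_zsmul_iff_not_isOfFinAddOrder.2 hP)
  intro hfin
  haveI := hfin.to_subtype
  have key : ∀ x y : ℚ, (⟨0, 0, 0, (A : ℚ), (B : ℚ)⟩ : WeierstrassCurve ℚ).toAffine.Nonsingular
      x y → (x, y) ∈ fibrePoints n a b := fun x y h => by
    have e := (Affine.equation_iff x y).1 h.1
    simp [A, B] at e
    simp only [fibrePoints, Set.mem_ofPred_eq, root₁, root₂, root₃] at *
    push_cast at e ⊢
    linear_combination e
  haveI : Finite (⟨0, 0, 0, (A : ℚ), (B : ℚ)⟩ : WeierstrassCurve ℚ).toAffine.Point := by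
    refine Finite.of_injective (β := Option (fibrePoints n a b)) (fun Q => match Q with
      | .zero => none
      | .some x y h => Option.some ⟨_, key x y h⟩) ?_
    rintro (_ | ⟨x, y, h⟩) (_ | ⟨x', y', h'⟩) e <;> simp at e
    · rfl
    · obtain ⟨rfl, rfl⟩ := e
      rfl
  exact not_finite (⟨0, 0, 0, (A : ℚ), (B : ℚ)⟩ : WeierstrassCurve ℚ).toAffine.Point

end FA.RationalTriangles
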