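import Fermat.Agent.RationalTriangles.Fibres
import Fermat.Agent.RationalTriangles.Egg
import Mathlib.Analysis.Real.Sqrt

/-!
# Density on `w² = n u v (u + v) (1 - u v)` and on `x y z (x + y + z) = n²`

The fibre over `u = 2 n m² / (n m² + 2)` has infinitely many points for a dense set of rational `m`,
so the points over `0 < u < 1` are dense; `u` and `v` are the tangents of two half angles.
-/

set_option autoImplicit false

noncomputable section

open Filter
open scoped Topology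

namespace FA.RationalTriangles

/-- `n u v (u + v) (1 - u v)`. -/
def halfAngleRhs {F : Type*} [Ring F] (n u v : F) : F := n * u * v * (u + v) * (1 - u * v)

theorem fibre_dense {n a b : ℤ} (hn : 0 < n) (ha : 0 < a) (hb : 0 < b)
    (hinf : (fibrePoints n a b).Infinite) {v w : ℝ} (hv : 0 < v) (huv : (a : ℝ) / b * v < 1)
    (h : w ^ 2 = halfAngleRhs (n : ℝ) ((a : ℝ) / b) v) {U : Set (ℝ × ℝ)} (hU : U ∈ 𝓝 (v, w)) :
    {Q : ℚ × ℚ | Q.2 ^ 2 = halfAngleRhs (n : ℚ) ((a : ℚ) / b) Q.1 ∧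
      ((Q.1 : ℝ), (Q.2 : ℝ)) ∈ U}.Infinite := by
  have na : (0 : ℝ) < n := Int.cast_pos.2 hn
  have aa : (0 : ℝ) < a := Int.cast_pos.2 ha
  have bb : (0 : ℝ) < b := Int.cast_pos.2 hb
  have h9 : (0 : ℝ) < 9 * n * a ^ 2 * b ^ 2 := by positivity
  rw [div_mul_eq_mul_div, div_lt_one bb] at huv
  set g : ℝ × ℝ → ℝ × ℝ := fun Q => (((root₁ n a b : ℝ) - Q.1) / (9 * n * a ^ 2 * b ^ 2),
    Q.2 / (27 * n * a ^ 2 * b ^ 4)) with hg
  have hcont : Continuous g := by fun_prop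
  set x : ℝ := root₁ n a b - 9 * n * a ^ 2 * b ^ 2 * v with hx
  set y : ℝ := 27 * n * a ^ 2 * b ^ 4 * w with hy
  have hgxy : g (x, y) = (v, w) := by
    refine Prod.ext ?_ ?_ <;> simp only [hg, hx, hy] <;> field_simp
    all_goals ring
  have hp21 : 0 < n * a * b ^ 3 := by positivity
  have hp31 : 0 < n * a ^ 3 * b := by positivity
  have h21 : root₂ n a b < root₁ n a b := by simp only [root₁, root₂]; linarith
  have h13 : root₁ n a b < root₃ n a b := by simp only [root₁, root₃]; linarith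
  refine Set.infinite_of_injOn_mapsTo
    (f := fun Q : ℚ × ℚ => (((root₁ n a b : ℚ) - Q.1) / (9 * n * a ^ 2 * b ^ 2),
      Q.2 / (27 * n * a ^ 2 * b ^ 4))) ?_ ?_
    (egg_dense (r₁ := root₁ n a b) (r₂ := root₂ n a b) (r₃ := root₃ n a b)
      (by exact_mod_cast root_sum n a b) (by exact_mod_cast h21) (by exact_mod_cast h13) hinf
      (x := x) (y := y) ?_ ?_ ?_ (hcont.continuousAt.preimage_mem_nhds (hgxy ▸ hU)))
  · have : (9 * n * a ^ 2 * b ^ 2 : ℚ) ≠ 0 := by positivity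
    have : (27 * n * a ^ 2 * b ^ 4 : ℚ) ≠ 0 := by positivity
    intro P _ Q _ e
    simp only [Prod.mk.injEq] at e
    obtain ⟨e₁, e₂⟩ := e
    refine Prod.ext ?_ ?_
    · field_simp at e₁; linarith
    · field_simp at e₂; linarith
  · rintro P ⟨hP, hU'⟩
    refine ⟨?_, ?_⟩
    · have : (b : ℚ) ≠ 0 := by positivity
      have : (n : ℚ) ≠ 0 := by positivity
      have : (a : ℚ) ≠ 0 := by positivity
      simp only [cubicAt, halfAngleRhs, root₁, root₂, root₃] at *
      push_cast at *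
      field_simp
      linear_combination 729 * hP
    · simp only [Set.mem_preimage, hg] at hU'
      push_cast
      exact hU'
  · simp only [hx, root₁, root₂]; push_cast
    nlinarith [mul_pos (mul_pos (mul_pos (by norm_num : (0 : ℝ) < 9) na)
      (mul_pos aa (pow_pos bb 2))) (sub_pos.2 huv)]
  · push_cast; rw [hx]; linarith [mul_pos h9 hv]
  · simp only [cubicAt, halfAngleRhs, hx, hy, root₁, root₂, root₃] at *
    push_cast
    field_simp at h
    linear_combination 729 * (n : ℝ) ^ 2 * a ^ 4 * b ^ 5 * h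

theorem exists_parameter {n : ℤ} (hn : 0 < n) {u : ℝ} (h0 : 0 < u) (h1 : u < 1) {V : Set ℝ}
    (hV : V ∈ 𝓝 u) :
    ∃ a b : ℤ, 0 < a ∧ 0 < b ∧ (a : ℝ) / b ∈ V ∧ (fibrePoints n a b).Infinite := by
  have na : (0 : ℝ) < n := Int.cast_pos.2 hn
  set φ : ℝ → ℝ := fun m => 2 * n * m ^ 2 / (n * m ^ 2 + 2) with hφ
  have hφc : Continuous φ := by fun_prop (disch := intro m; positivity)
  set m₀ : ℝ := √(2 * u / (n * (2 - u))) with hm
  have hm0 : φ m₀ = u := by
    have h2 : 0 < 2 - u := by linarith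
    simp only [hφ, hm, Real.sq_sqrt (show 0 ≤ 2 * u / (n * (2 - u)) by positivity)]
    field_simp
    ring
  obtain ⟨δ, hδ, hball⟩ := Metric.mem_nhds_iff.1
    (hφc.continuousAt (x := m₀) (hm0 ▸ inter_mem hV (Ioo_mem_nhds h0 h1)))
  set q := (18 * n - 1).natAbs.minFac with hq
  have hM : (18 * n - 1).natAbs ≠ 1 := by omega
  have hqp : q.Prime := Nat.minFac_prime hM
  have hqM : (q : ℤ) ∣ 18 * n - 1 := Int.natCast_dvd.2 (Nat.minFac_dvd _)
  have hqn : ¬(q : ℤ) ∣ n := fun h => by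
    have h' : (q : ℤ) ∣ 1 := by simpa using dvd_sub (dvd_mul_of_dvd_right h 18) hqM
    exact hqp.one_lt.ne' (by exact_mod_cast Int.eq_one_of_dvd_one (by positivity) h')
  have h5 : 5 ≤ q := by
    by_contra hlt
    push Not at hlt
    have : q = 2 ∨ q = 3 := by interval_cases q <;> omega
    rcases this with e | e <;> rw [e] at hqM <;> omega
  obtain ⟨k, hk⟩ := exists_nat_gt ((q : ℝ) / δ)
  set d : ℤ := q * k + 1 with hd
  have hd0 : (0 : ℝ) < d := by rw [hd]; push_cast; positivity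
  set j := ⌊(m₀ - 6) * d / q⌋
  set c : ℤ := 6 * d + q * j with hc
  have hq0 : (0 : ℝ) < q := Nat.cast_pos.2 hqp.pos
  have hclose : (c : ℝ) / d ∈ Metric.ball m₀ δ := by
    rw [Metric.mem_ball, Real.dist_eq, abs_lt]
    have hj1 : (j : ℝ) ≤ (m₀ - 6) * d / q := Int.floor_le _
    have hj2 : (m₀ - 6) * d / q < j + 1 := Int.lt_floor_add_one _
    rw [le_div_iff₀ hq0] at hj1
    rw [div_lt_iff₀ hq0] at hj2
    have hqd : (q : ℝ) < δ * d := by
      rw [div_lt_iff₀ hδ] at hk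
      have : (k : ℝ) ≤ d := by
        rw [hd]; push_cast
        nlinarith [show (1 : ℝ) ≤ q from by exact_mod_cast hqp.one_le, k.cast_nonneg (α := ℝ)]
      nlinarith
    rw [sub_lt_iff_lt_add, lt_sub_iff_add_lt, lt_div_iff₀ hd0, div_lt_iff₀ hd0]
    simp only [hc]; push_cast
    constructor <;> nlinarith
  obtain ⟨hmem, hab0, hab1⟩ := hball hclose
  have hφab : φ ((c : ℝ) / d) = ((2 * n * c ^ 2 : ℤ) : ℝ) / ((n * c ^ 2 + 2 * d ^ 2 : ℤ) : ℝ) := by
    simp only [hφ]; push_cast; field_simp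
  rw [hφab] at hmem hab0 hab1
  have hc0 : c ≠ 0 := fun e => by simp [e] at hab0
  have hd0' : 0 < d := by exact_mod_cast hd0
  have hb0 : 0 < n * c ^ 2 + 2 * d ^ 2 := by positivity
  refine ⟨_, _, by positivity, hb0, hmem, infinite_fibre hqp h5 hqn ?_ ?_ ?_⟩
  · intro h
    have : (q : ℤ) ∣ 1 := by
      have := dvd_sub h (dvd_mul_right (q : ℤ) k)
      simpa [hd] using this
    exact hqp.one_lt.ne' (by exact_mod_cast Int.eq_one_of_dvd_one (by positivity) this)
  · rw [hc, show n * (6 * d + q * j) ^ 2 - 2 * d ^ 2 =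
      q * (n * j * (12 * d + q * j)) + 2 * d ^ 2 * (18 * n - 1) by ring]
    exact dvd_add (dvd_mul_right _ _) (dvd_mul_of_dvd_right hqM _)
  · intro e
    rw [show (2 * n * c ^ 2 : ℤ) = n * c ^ 2 + 2 * d ^ 2 by linear_combination e,
      div_self (by positivity)] at hab1
    exact lt_irrefl _ hab1

theorem halfAngle_dense {n : ℤ} (hn : 0 < n) {u v w : ℝ} (hu : 0 < u) (hu1 : u < 1) (hv : 0 < v)
    (huv : u * v < 1) (h : w ^ 2 = halfAngleRhs (n : ℝ) u v) {U : Set (ℝ × ℝ × ℝ)}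
    (hU : U ∈ 𝓝 (u, v, w)) :
    {P : ℚ × ℚ × ℚ | P.2.2 ^ 2 = halfAngleRhs (n : ℚ) P.1 P.2.1 ∧
      ((P.1 : ℝ), (P.2.1 : ℝ), (P.2.2 : ℝ)) ∈ U}.Infinite := by
  have na : (0 : ℝ) < n := Int.cast_pos.2 hn
  have hF : 0 < halfAngleRhs (n : ℝ) u v :=
    mul_pos (by positivity) (sub_pos.2 huv)
  set γ : ℝ → ℝ × ℝ × ℝ := fun t =>
    (t, v, w / √(halfAngleRhs (n : ℝ) u v) * √(halfAngleRhs (n : ℝ) t v))
  have hγc : Continuous γ := by simp only [γ, halfAngleRhs]; fun_prop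
  have hγu : γ u = (u, v, w) := by
    simp only [γ, div_mul_cancel₀ w (Real.sqrt_pos.2 hF).ne']
  obtain ⟨a, b, ha, hb, ⟨hmem, hprod⟩, hinf⟩ := exists_parameter hn hu hu1 (inter_mem
    (hγc.continuousAt.preimage_mem_nhds (hγu ▸ eventually_mem_nhds_iff.2 hU))
    ((isOpen_lt (continuous_id.mul continuous_const) continuous_const).mem_nhds huv))
  simp only [Set.mem_ofPred_eq] at hprod
  set t : ℝ := (a : ℝ) / b with ht
  have ht0 : 0 < t := div_pos (Int.cast_pos.2 ha) (Int.cast_pos.2 hb)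
  have hcont : Continuous fun Q : ℝ × ℝ => (t, Q.1, Q.2) := by fun_prop
  simp only [Set.mem_preimage, Set.mem_ofPred_eq] at hmem
  refine Set.infinite_of_injOn_mapsTo (f := fun Q : ℚ × ℚ => ((a : ℚ) / b, Q.1, Q.2)) ?_ ?_
    (fibre_dense hn ha hb hinf (v := v)
      (w := w / √(halfAngleRhs (n : ℝ) u v) * √(halfAngleRhs (n : ℝ) t v)) hv hprod ?_
      (hcont.continuousAt.preimage_mem_nhds hmem))
  · intro P _ Q _ e
    simpa using e
  · rintro Q ⟨hQ, hU'⟩
    exact ⟨hQ, by simpa [ht] using hU'⟩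
  · rw [mul_pow, div_pow, Real.sq_sqrt hF.le, h, div_self hF.ne', one_mul, Real.sq_sqrt]
    exact (mul_pos (by positivity) (sub_pos.2 hprod)).le

/-- `xyz (x + y + z)`. -/
def heronProduct {F : Type*} [Ring F] (P : F × F × F) : F :=
  P.1 * P.2.1 * P.2.2 * (P.1 + P.2.1 + P.2.2)

/-- From half angles to `(s - a, s - b, s - c)`. -/
def toHeron {F : Type*} [Field F] (P : F × F × F) : F × F × F :=
  (P.2.2 / ((P.1 + P.2.1) * P.1), P.2.2 / ((P.1 + P.2.1) * P.2.1), P.2.2 / (1 - P.1 * P.2.1))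

/-- The inverse on positive points. -/
def ofHeron {F : Type*} [Field F] (n : F) (P : F × F × F) : F × F × F :=
  (n / (P.1 * (P.1 + P.2.1 + P.2.2)), n / (P.2.1 * (P.1 + P.2.1 + P.2.2)),
    (n / (P.1 * (P.1 + P.2.1 + P.2.2)) + n / (P.2.1 * (P.1 + P.2.1 + P.2.2))) *
      (n / (P.1 + P.2.1 + P.2.2)))

theorem heronProduct_toHeron {F : Type*} [Field F] {n u v w : F} (hu : u ≠ 0) (hv : v ≠ 0)
    (hs : u + v ≠ 0) (hd : 1 - u * v ≠ 0) (h : w ^ 2 = halfAngleRhs n u v) :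
    heronProduct (toHeron (u, v, w)) = n ^ 2 := by
  simp only [heronProduct, toHeron, halfAngleRhs] at *
  field_simp
  linear_combination (u + v) * (w ^ 2 + n * u * v * (u + v) * (1 - u * v)) * h

theorem ofHeron_toHeron {n u v w : ℚ} (hu : 0 < u) (hv : 0 < v) (hd : 0 < 1 - u * v) (hw : 0 < w)
    (h : w ^ 2 = halfAngleRhs n u v) : ofHeron n (toHeron (u, v, w)) = (u, v, w) := by
  have hsum : w / ((u + v) * u) + w / ((u + v) * v) + w / (1 - u * v) =
      w / (u * v * (1 - u * v)) := by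
    field_simp; ring
  simp only [halfAngleRhs] at h
  simp only [ofHeron, toHeron, hsum]
  refine Prod.ext ?_ (Prod.ext ?_ ?_) <;> simp only <;> field_simp
  · linear_combination -h
  · linear_combination -h
  · linear_combination (-(w ^ 2) - n * u * v * (u + v) * (1 - u * v)) * h

theorem heron_dense_max {n : ℤ} (hn : 0 < n) {x y z : ℝ} (hy : 0 < y) (hz : 0 < z) (hyx : y ≤ x)
    (hzx : z ≤ x) (h : heronProduct (x, y, z) = (n : ℝ) ^ 2) {U : Set (ℝ × ℝ × ℝ)}
    (hU : U ∈ 𝓝 (x, y, z)) :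
    {P : ℚ × ℚ × ℚ | heronProduct P = (n : ℚ) ^ 2 ∧
      ((P.1 : ℝ), (P.2.1 : ℝ), (P.2.2 : ℝ)) ∈ U}.Infinite := by
  have na : (0 : ℝ) < n := Int.cast_pos.2 hn
  have hx : 0 < x := hy.trans_le hyx
  simp only [heronProduct] at h
  obtain ⟨u, hu⟩ : ∃ u, u = n / (x * (x + y + z)) := ⟨_, rfl⟩
  obtain ⟨v, hv⟩ : ∃ v, v = n / (y * (x + y + z)) := ⟨_, rfl⟩
  obtain ⟨w, hw⟩ : ∃ w, w = (u + v) * (n / (x + y + z)) := ⟨_, rfl⟩
  have u0 : 0 < u := hu ▸ by positivity
  have v0 : 0 < v := hv ▸ by positivity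
  have w0 : 0 < w := hw ▸ by positivity
  have huv : 1 - u * v = (x + y) / (x + y + z) := by
    rw [hu, hv]; field_simp; linear_combination h
  have huv0 : 0 < 1 - u * v := huv ▸ by positivity
  have hu1 : u < 1 := by
    rw [hu, div_lt_one (by positivity)]
    refine lt_of_pow_lt_pow_left₀ 2 (by positivity) ?_
    rw [← h]
    nlinarith [mul_le_mul hyx hzx hz.le hx.le, mul_pos hx (add_pos hy hz),
      mul_pos hx (mul_pos hx (add_pos (add_pos hx hy) hz))]
  have heq : toHeron (u, v, w) = (x, y, z) := by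
    refine Prod.ext ?_ (Prod.ext ?_ ?_) <;> simp only [toHeron, huv] <;> rw [hw]
    · rw [hu, hv]; field_simp
    · rw [hu, hv]; field_simp
    · rw [hu, hv]; field_simp; linear_combination -(x + y) * h
  have hsurf : w ^ 2 = halfAngleRhs (n : ℝ) u v := by
    simp only [halfAngleRhs, huv]
    rw [hw, hu, hv]; field_simp; ring
  have hT : ContinuousAt toHeron (u, v, w) := by
    have h₁ : (u + v) * u ≠ 0 := by positivity
    have h₂ : (u + v) * v ≠ 0 := by positivity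
    unfold toHeron
    exact (continuousAt_snd.snd.div (by fun_prop) h₁).prodMk
      ((continuousAt_snd.snd.div (by fun_prop) h₂).prodMk
        (continuousAt_snd.snd.div (by fun_prop) huv0.ne'))
  have hpos : {P : ℝ × ℝ × ℝ | 0 < P.1 ∧ 0 < P.2.1 ∧ 0 < 1 - P.1 * P.2.1 ∧ 0 < P.2.2} ∈
      𝓝 (u, v, w) :=
    ((isOpen_lt continuous_const continuous_fst).inter ((isOpen_lt continuous_const
      continuous_snd.fst).inter ((isOpen_lt continuous_const (continuous_const.sub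
        (continuous_fst.mul continuous_snd.fst))).inter
          (isOpen_lt continuous_const continuous_snd.snd)))).mem_nhds ⟨u0, v0, huv0, w0⟩
  refine Set.infinite_of_injOn_mapsTo (f := toHeron) ?_ ?_ (halfAngle_dense hn u0 hu1 v0
    (by linarith) hsurf (inter_mem (hT.preimage_mem_nhds (heq ▸ hU)) hpos))
  · rintro ⟨a, b, c⟩ ⟨hP, -, ha, hb, hd, hc⟩ ⟨a', b', c'⟩ ⟨hP', -, ha', hb', hd', hc'⟩ e
    simp only at ha hb hd hc ha' hb' hd' hc' hP hP'
    rw [← ofHeron_toHeron (Rat.cast_pos.1 ha) (Rat.cast_pos.1 hb) (by exact_mod_cast hd)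
      (Rat.cast_pos.1 hc) hP, e, ofHeron_toHeron (Rat.cast_pos.1 ha') (Rat.cast_pos.1 hb')
      (by exact_mod_cast hd') (Rat.cast_pos.1 hc') hP']
  · rintro ⟨a, b, c⟩ ⟨hP, hU', ha, hb, hd, hc⟩
    simp only at ha hb hd hP
    refine ⟨heronProduct_toHeron (Rat.cast_pos.1 ha).ne' (Rat.cast_pos.1 hb).ne' (add_pos
      (Rat.cast_pos.1 ha) (Rat.cast_pos.1 hb)).ne' ?_ hP, ?_⟩
    · exact (show (0 : ℚ) < 1 - a * b by exact_mod_cast hd).ne'
    · simp only [Set.mem_preimage, toHeron] at hU' ⊢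
      push_cast
      exact hU'

end FA.RationalTriangles
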